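import Fermat.Agent.S56.RQ.Spec
import Fermat.Agent.S56.H554.LocTWCup
import Fermat.Agent.S56.H536.Cocycle

/-!
# Row S56 / REC-Q, leaf LOCTRIV (helper514; subtask 653)

`locTrivTw_of : GenStatement → LocTrivTwStatement`: at a Taylor–Wiles prime `q`, a twisted
cocycle `y` unramified at `P | q` whose value at a Frobenius element `φ` is `φ m φ⁻¹ − m`
(`tr m = 0`) is the coboundary of `m` on the decomposition group `D_P`.

Proof.  `φ` and `I_P` fix `μ_p` (`H554.fixes_mu_of_isFrobeniusAt`, `fixes_mu_of_mem_inertia`);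
`ρ̄` is unramified at `q`.  Let `L` be a finite level containing the levels of `y` and of `ρ̄` and
`ℚ(μ_p)`.  By GEN every `σ ∈ D_P` agrees on `L` with some `φ ^ n * τ`, `τ ∈ I_P`.  Hence
`y σ = y (φ ^ n * τ) = y (φ ^ n) = Ad(φ ^ n) m − m = Ad(σ) m − m`, and every cyclotomic exponent
of `σ` is `1` in `k`.
-/

set_option autoImplicit false
set_option linter.style.haveILetI false

open Polynomial IsLocalRing

noncomputable section

namespace Fermat.Agent.S56.RQ.H514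

open Fermat.Agent.S56 Fermat.Agent.S56.H716

section Core

variable {k : Type} [Field k] {ρbar : ResidualGaloisRep k} {p : ℕ}

/-- uniqueness of the inverse: `ρ̄ σ = ρ̄ σ'` implies `ρ̄ σ⁻¹ = ρ̄ σ'⁻¹` -/
theorem rho_inv_eq_of_rho_eq {σ σ' : GQ} (h : ρbar.ρ σ = ρbar.ρ σ') :
    ρbar.ρ σ⁻¹ = ρbar.ρ σ'⁻¹ := by
  calc ρbar.ρ σ⁻¹ = ρbar.ρ σ⁻¹ * (ρbar.ρ σ' * ρbar.ρ σ'⁻¹) := by
        rw [H536.rho_mul_rho_inv, mul_one]
    _ = ρbar.ρ σ⁻¹ * ρbar.ρ σ * ρbar.ρ σ'⁻¹ := by rw [← h, mul_assoc]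
    _ = ρbar.ρ σ'⁻¹ := by rw [H536.rho_inv_mul_rho, one_mul]

/-- Two exponents of the same element agree in a field of characteristic `p`. -/
theorem natCast_eq_one_of_isCycExp [CharP k p] (hp : p.Prime) {σ : GQ} {a : ℕ}
    (ha : IsCycExp p σ a) (h1 : IsCycExp p σ 1) : (a : k) = 1 := by
  haveI : NeZero p := ⟨hp.ne_zero⟩
  have hζ := Fermat.Agent.S55.H414.zetaBar_spec p
  have h2 : Fermat.Agent.S55.H414.zetaBar p ^ a = Fermat.Agent.S55.H414.zetaBar p ^ 1 := by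
    rw [← ha _ hζ.pow_eq_one, ← h1 _ hζ.pow_eq_one]
  rw [pow_one] at h2
  have h3 : a ≡ 1 [MOD p] := by
    rcases Nat.eq_zero_or_pos a with rfl | hapos
    · rw [pow_zero] at h2
      have h5 : p ∣ 1 := (hζ.pow_eq_one_iff_dvd 1).1 (by rw [pow_one]; exact h2.symm)
      exact absurd (Nat.dvd_one.1 h5) hp.one_lt.ne'
    · have hζ0 : Fermat.Agent.S55.H414.zetaBar p ≠ 0 := hζ.ne_zero hp.ne_zero
      have h5 : Fermat.Agent.S55.H414.zetaBar p ^ (a - 1) = 1 := by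
        have h6 : Fermat.Agent.S55.H414.zetaBar p ^ (a - 1) * Fermat.Agent.S55.H414.zetaBar p =
            1 * Fermat.Agent.S55.H414.zetaBar p := by
          rw [← pow_succ, Nat.sub_add_cancel hapos, one_mul]
          exact h2
        exact mul_right_cancel₀ hζ0 h6
      have h7 : p ∣ a - 1 := (hζ.pow_eq_one_iff_dvd _).1 h5
      exact ((Nat.modEq_iff_dvd' hapos).2 h7).symm
  have h4 := (CharP.natCast_eq_natCast k p).2 h3
  rwa [Nat.cast_one] at h4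

/-- **LOCTRIV, core.**  `D_P` is generated modulo `L` by `φ` and `I_P`, which fix `μ_p`; `ρ̄` is
trivial on `I_P`; `y` vanishes on `I_P` and `y φ = φ m φ⁻¹ − m`. -/
theorem locTriv_core [CharP k p] (hp : p.Prime) {D I : Subgroup GQ} {φ : GQ}
    (hφ1 : IsCycExp p φ 1) (hI1 : ∀ τ ∈ I, IsCycExp p τ 1)
    (hur : ∀ τ ∈ I, ρbar.ρ τ = 1)
    (hgen : ∀ L : IntermediateField ℚ Qb, FiniteDimensional ℚ L →
      ∀ σ ∈ D, ∃ n : ℕ, ∃ τ ∈ I, ∀ x ∈ L, σ x = (φ ^ n * τ) x)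
    {y : GQ → Module.End k ρbar.V} (hy : IsTwCocycle ρbar p y)
    (hyI : ∀ τ ∈ I, y τ = 0) {m : Module.End k ρbar.V}
    (hm : LinearMap.trace k ρbar.V m = 0)
    (hyφ : y φ = ρbar.ρ φ * m * ρbar.ρ φ⁻¹ - m) :
    IsTwCoboundaryOn ρbar p D y m := by
  haveI : NeZero p := ⟨hp.ne_zero⟩
  refine ⟨hm, fun σ hσ a ha => ?_⟩
  obtain ⟨Ly, hLy, hyL⟩ := H536.cocycle_eq_of_agree hy
  obtain ⟨Lρ, hLρ, hρL⟩ := ρbar.factorsThroughFiniteLevel
  haveI := hLy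
  haveI := hLρ
  haveI : FiniteDimensional ℚ ↥(Ly ⊔ Lρ) := IntermediateField.finiteDimensional_sup Ly Lρ
  haveI hLfin : FiniteDimensional ℚ ↥(Ly ⊔ Lρ ⊔ Fermat.Agent.S55.H414.cycloLevel p) :=
    IntermediateField.finiteDimensional_sup (Ly ⊔ Lρ) (Fermat.Agent.S55.H414.cycloLevel p)
  obtain ⟨n, τ, hτ, hστ⟩ := hgen _ hLfin σ hσ
  have hLy_le : Ly ≤ Ly ⊔ Lρ ⊔ Fermat.Agent.S55.H414.cycloLevel p :=
    le_sup_left.trans le_sup_left
  have hLρ_le : Lρ ≤ Ly ⊔ Lρ ⊔ Fermat.Agent.S55.H414.cycloLevel p :=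
    le_sup_right.trans le_sup_left
  have hLc_le : Fermat.Agent.S55.H414.cycloLevel p ≤
      Ly ⊔ Lρ ⊔ Fermat.Agent.S55.H414.cycloLevel p := le_sup_right
  -- `φ ^ n` fixes `μ_p`
  have hφn1 : IsCycExp p (φ ^ n) 1 := by
    intro μ hμ
    rw [pow_one]
    have := hφ1 μ hμ
    rw [pow_one] at this
    exact H536.pow_apply_eq_of_apply_eq φ this n
  -- `σ` fixes `μ_p`
  have hσ1 : IsCycExp p σ 1 := by
    intro μ hμ
    rw [pow_one, hστ μ (hLc_le (H536.mem_cycloLevel_of_pow_eq_one p hμ))]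
    show (φ ^ n) (τ μ) = μ
    have h1 := hI1 τ hτ μ hμ
    rw [pow_one] at h1
    rw [h1]
    have h2 := hφn1 μ hμ
    rwa [pow_one] at h2
  -- `y σ = y (φ ^ n)`
  have hy1 : y σ = y (φ ^ n) := by
    rw [hyL σ (φ ^ n * τ) (fun x hx => hστ x (hLy_le hx)), hy.map_mul (φ ^ n) τ 1 hφn1,
      hyI τ hτ]
    simp [twAd]
  -- `ρ̄ σ = ρ̄ (φ ^ n)`
  have hρ1 : ρbar.ρ σ = ρbar.ρ (φ ^ n) := by
    have hg : ρbar.ρ ((φ ^ n * τ)⁻¹ * σ) = 1 := by
      apply hρL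
      intro x hx
      rw [AlgEquiv.mul_apply, hστ x (hLρ_le hx)]
      exact (φ ^ n * τ).symm_apply_apply x
    have h2 : ρbar.ρ σ = ρbar.ρ (φ ^ n * τ) * ρbar.ρ ((φ ^ n * τ)⁻¹ * σ) := by
      rw [← map_mul, mul_inv_cancel_left]
    rw [h2, hg, mul_one, map_mul, hur τ hτ, mul_one]
  have hρ2 : ρbar.ρ σ⁻¹ = ρbar.ρ (φ ^ n)⁻¹ := rho_inv_eq_of_rho_eq hρ1
  rw [hy1, H536.coboundary_pow hy φ hφ1 m hyφ n]
  unfold twAd
  rw [natCast_eq_one_of_isCycExp hp ha hσ1, one_smul, hρ1, hρ2]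

end Core

/-- **LOCTRIV** from GEN. -/
theorem locTrivTw_of (hGen : GenStatement) : LocTrivTwStatement := by
  intro 𝒪 _ _ _ _ _ p ρbar S Smin hyp q hq P hP φ hφ y hy hyI m hm hyφ
  have hp := hyp.hp
  have hqP : q.Prime := hq.1
  have hpq : p ≠ q := by
    rintro rfl
    exact hq.2.1 (hyp.hSmin hyp.hpSmin)
  have hq1 : p ∣ q - 1 := hq.2.2.1
  haveI : CharP (ResidueField 𝒪) p := H536.charP_residueField 𝒪 p hp hyp.hp𝒪
  have hur : ∀ σ ∈ P.inertiaSubgroupIn ℚ, ρbar.ρ σ = 1 := by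
    have hqSmin : q ∉ Smin := fun h => hq.2.1 (hyp.hSmin h)
    have hunr : ρbar.IsUnramifiedAt q := by
      by_contra hnot
      exact hqSmin ((hyp.hmin q hqP hpq.symm).2 hnot)
    exact hunr P hP
  exact locTriv_core hp (H554.fixes_mu_of_isFrobeniusAt hqP hP hp hpq hq1 hφ)
    (fun τ hτ => H554.fixes_mu_of_mem_inertia hqP hP hp hpq hτ) hur
    (fun L hL σ hσ => hGen q P φ hqP hP hφ L hL σ hσ) hy hyI hm hyφ

end Fermat.Agent.S56.RQ.H514
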